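/-
S32, closure half (C2) of the transfer chain (helper133): products and finite powers.

* `HasOrder.prod` : `(G₁, act₁)`, `(G₂, act₂)` ⟹ `(G₁ × G₂, act₁ × act₂)` (tensor product of the
  two orders, realised through `(a ⊗ b) (x₁, x₂) = a x₁ * b x₂`; the range construction
  `hasOrder_of_map` spares the injectivity of the realisation);
* `HasOrder.pi`   : `(G, act)` ⟹ `(Fin s → G, coordinatewise act)`.
-/
import Mathlib
import Fermat.Agent.S32.Closure.Sub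

set_option autoImplicit false
set_option linter.style.haveILetI false

noncomputable section

namespace Fermat.Agent.S32.Closure

open scoped TensorProduct
open Fermat.Agent.S19.HopfOrder GaloisRep

variable {ℓ : ℕ} {G₁ G₂ : Type}
  {A₁ A₂ : Type} [CommRing A₁] [Algebra (Zl ℓ) A₁] [CommRing A₂] [Algebra (Zl ℓ) A₂]

/-- The realisation of `A₁ ⊗ A₂` on `G₁ × G₂`: `(a ⊗ b) (x₁, x₂) = a x₁ * b x₂`. -/
def mu12 (ι₁ : A₁ →ₐ[Zl ℓ] (G₁ → Qb)) (ι₂ : A₂ →ₐ[Zl ℓ] (G₂ → Qb)) :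
    A₁ ⊗[Zl ℓ] A₂ →ₐ[Zl ℓ] (G₁ × G₂ → Qb) :=
  Algebra.TensorProduct.productMap ((pull ℓ Prod.fst).comp ι₁) ((pull ℓ Prod.snd).comp ι₂)

@[simp] theorem mu12_tmul (ι₁ : A₁ →ₐ[Zl ℓ] (G₁ → Qb)) (ι₂ : A₂ →ₐ[Zl ℓ] (G₂ → Qb))
    (a : A₁) (b : A₂) (p : G₁ × G₂) : mu12 ι₁ ι₂ (a ⊗ₜ[Zl ℓ] b) p = ι₁ a p.1 * ι₂ b p.2 := by
  simp [mu12]

variable [AddCommGroup G₁] [AddCommGroup G₂] {act₁ : Gal → G₁ → G₁} {act₂ : Gal → G₂ → G₂}

/-- **(prod)** Products of Hopf orders of functions. -/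
theorem HasOrder.prod (h₁ : HasOrder ℓ G₁ act₁) (h₂ : HasOrder ℓ G₂ act₂) :
    HasOrder ℓ (G₁ × G₂) (fun σ x => (act₁ σ x.1, act₂ σ x.2)) := by
  classical
  obtain ⟨A₁, _, _, ι₁, O₁⟩ := h₁
  obtain ⟨A₂, _, _, ι₂, O₂⟩ := h₂
  haveI := O₁.finite
  haveI := O₂.finite
  haveI := O₁.free
  haveI := O₂.free
  refine hasOrder_of_map (mu12 ι₁ ι₂) ?_ ?_ ?_
  · -- equivariance
    intro s σ x
    induction s using TensorProduct.induction_on with
    | zero => simp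
    | tmul a b =>
      simp only [mu12_tmul, O₁.equivariant, O₂.equivariant, map_mul]
    | add s t hs ht =>
      have e1 : ∀ z : G₁ × G₂, mu12 ι₁ ι₂ (s + t) z = mu12 ι₁ ι₂ s z + mu12 ι₁ ι₂ t z :=
        fun z => by rw [map_add, Pi.add_apply]
      rw [e1, e1, hs, ht, map_add]
  · -- separation
    rintro ⟨x₁, x₂⟩ ⟨y₁, y₂⟩ hxy
    by_cases h1 : x₁ = y₁
    · have h2 : x₂ ≠ y₂ := fun h2 => hxy (by rw [h1, h2])
      obtain ⟨b, hb⟩ := O₂.sep x₂ y₂ h2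
      refine ⟨1 ⊗ₜ[Zl ℓ] b, ?_⟩
      simp only [mu12_tmul, map_one, Pi.one_apply, one_mul]
      exact hb
    · obtain ⟨a, ha⟩ := O₁.sep x₁ y₁ h1
      refine ⟨a ⊗ₜ[Zl ℓ] 1, ?_⟩
      simp only [mu12_tmul, map_one, Pi.one_apply, mul_one]
      exact ha
  · -- comultiplication
    intro s
    induction s using TensorProduct.induction_on with
    | zero => exact ⟨0, fun x y => by simp⟩
    | tmul a b =>
      obtain ⟨t₁, ht₁⟩ := O₁.comul a
      obtain ⟨t₂, ht₂⟩ := O₂.comul b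
      let e₁ := Module.Free.chooseBasis (Zl ℓ) A₁
      let e₂ := Module.Free.chooseBasis (Zl ℓ) A₂
      obtain ⟨m₁, hm₁⟩ := exists_sum_tmul_basis e₁ t₁
      obtain ⟨m₂, hm₂⟩ := exists_sum_tmul_basis e₂ t₂
      have hF₁ : ∀ x y, ι₁ a (x + y) = ∑ i, ι₁ (m₁ i) x * ι₁ (e₁ i) y := by
        intro x y
        have h1 : mu2 ι₁ t₁ (x, y) = ι₁ a (x + y) := congrFun ht₁ (x, y)
        rw [← h1, hm₁, map_sum, Finset.sum_apply]
        exact Finset.sum_congr rfl fun i _ => mu2_tmul ι₁ (m₁ i) (e₁ i) (x, y)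
      have hF₂ : ∀ x y, ι₂ b (x + y) = ∑ j, ι₂ (m₂ j) x * ι₂ (e₂ j) y := by
        intro x y
        have h1 : mu2 ι₂ t₂ (x, y) = ι₂ b (x + y) := congrFun ht₂ (x, y)
        rw [← h1, hm₂, map_sum, Finset.sum_apply]
        exact Finset.sum_congr rfl fun j _ => mu2_tmul ι₂ (m₂ j) (e₂ j) (x, y)
      refine ⟨∑ i, ∑ j, (m₁ i ⊗ₜ[Zl ℓ] m₂ j) ⊗ₜ[Zl ℓ] (e₁ i ⊗ₜ[Zl ℓ] e₂ j), fun x y => ?_⟩
      rw [mu12_tmul]
      change _ = ι₁ a (x.1 + y.1) * ι₂ b (x.2 + y.2)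
      rw [hF₁, hF₂, Finset.sum_mul_sum, map_sum, Finset.sum_apply]
      refine Finset.sum_congr rfl fun i _ => ?_
      rw [map_sum, Finset.sum_apply]
      refine Finset.sum_congr rfl fun j _ => ?_
      rw [mu2_tmul, mu12_tmul, mu12_tmul]
      change ι₁ (m₁ i) x.1 * ι₂ (m₂ j) x.2 * (ι₁ (e₁ i) y.1 * ι₂ (e₂ j) y.2) = _
      ring
    | add s t hs ht =>
      obtain ⟨u, hu⟩ := hs
      obtain ⟨v, hv⟩ := ht
      refine ⟨u + v, fun x y => ?_⟩
      have e1 : mu2 (mu12 ι₁ ι₂) (u + v) (x, y) =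
          mu2 (mu12 ι₁ ι₂) u (x, y) + mu2 (mu12 ι₁ ι₂) v (x, y) := by rw [map_add, Pi.add_apply]
      have e2 : mu12 ι₁ ι₂ (s + t) (x + y) = mu12 ι₁ ι₂ s (x + y) + mu12 ι₁ ι₂ t (x + y) := by
        rw [map_add, Pi.add_apply]
      rw [e1, e2, hu, hv]

/-- The map `x ↦ (x 0, x ∘ succ)`. -/
def consHom (G : Type) [AddCommGroup G] (s : ℕ) : (Fin (s + 1) → G) →+ G × (Fin s → G) where
  toFun x := (x 0, fun i => x i.succ)
  map_zero' := rfl
  map_add' _ _ := rfl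

theorem consHom_injective (G : Type) [AddCommGroup G] (s : ℕ) :
    Function.Injective (consHom G s) := by
  intro x y h
  have h0 : x 0 = y 0 := congrArg Prod.fst h
  have h1 : (fun i : Fin s => x i.succ) = fun i => y i.succ := congrArg Prod.snd h
  funext i
  refine Fin.cases h0 (fun j => ?_) i
  exact congrFun h1 j

/-- **(pi)** Finite powers of Hopf orders of functions. -/
theorem HasOrder.pi {G : Type} [AddCommGroup G] {act : Gal → G → G} (h : HasOrder ℓ G act) :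
    ∀ s : ℕ, HasOrder ℓ (Fin s → G) (fun σ x i => act σ (x i))
  | 0 => h.of_injective (0 : (Fin 0 → G) →+ G) (fun x y _ => Subsingleton.elim x y)
      (fun σ _ => (h.act_zero σ).symm)
  | s + 1 => (h.prod (HasOrder.pi h s)).of_injective (consHom G s) (consHom_injective G s)
      (fun _ _ => rfl)

end Fermat.Agent.S32.Closure
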