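/-
S32, closure half (C2) of the transfer chain (helper133): `HasOrder` and the range construction.

Vocabulary of `S19/HopfOrder` (helper235): `Zl ℓ = ℤ_(ℓ)`, `Qb = ℚ̄`, `Gal = Gal(ℚ̄/ℚ)`,
`IsOrder act ι` (a finite `ℤ_(ℓ)`-algebra of `act`-equivariant functions `G → ℚ̄`, separating the
points, closed under `h ↦ ((x, y) ↦ h (x + y))`).

* `HasOrder ℓ G act`      : some Hopf order of functions exists on `(G, act)`;
* `HasOrder.exists_hopf`  : the exit, the frozen existential (conclusion of `IsOrder.exists_hopf`);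
* `isOrder_range`         : an algebra map `φ : A → (G → ℚ̄)` from a finite algebra, equivariant,
                            separating and closed under the comultiplication, gives the order
                            `φ.range` (no injectivity of `φ` is asked);
* `mu2_map`, `mu2_pull`   : naturality of the two-variable realisation.
-/
import Mathlib
import Fermat.Agent.S19.HopfOrder

set_option autoImplicit false

noncomputable section

namespace Fermat.Agent.S32.Closure

open scoped TensorProduct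
open Fermat.Agent.S19.HopfOrder GaloisRep

/-- **`(G, act)` carries a Hopf order of functions over `ℤ_(ℓ)`.** -/
def HasOrder (ℓ : ℕ) (G : Type) [AddCommGroup G] (act : Gal → G → G) : Prop :=
  ∃ (A : Type) (_ : CommRing A) (_ : Algebra (Zl ℓ) A) (ι : A →ₐ[Zl ℓ] (G → Qb)), IsOrder act ι

/-- The exit: a Hopf order of functions gives the frozen existential of S19 / `IsFlatAt`. -/
theorem HasOrder.exists_hopf {ℓ : ℕ} {G : Type} [AddCommGroup G] {act : Gal → G → G}
    (h : HasOrder ℓ G act) :
    ∃ (H : Type) (_ : CommRing H) (_ : HopfAlgebra (ratLocalizedAt ℓ) H),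
      Module.Finite (ratLocalizedAt ℓ) H ∧ Module.Flat (ratLocalizedAt ℓ) H ∧
      Coalgebra.IsCocomm (ratLocalizedAt ℓ) H ∧
      ∃ e : WithConv (H →ₐ[ratLocalizedAt ℓ] AlgebraicClosure ℚ) ≃ G,
        (∀ f g, e (f * g) = e f + e g) ∧
        ∀ (σ : AlgebraicClosure ℚ ≃ₐ[ℚ] AlgebraicClosure ℚ)
          (f g : WithConv (H →ₐ[ratLocalizedAt ℓ] AlgebraicClosure ℚ)),
          (∀ h : H, g h = σ (f h)) → e g = act σ (e f) := by
  obtain ⟨A, _, _, ι, O⟩ := h
  exact O.exists_hopf

variable {ℓ : ℕ}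

/-- Naturality of `mu2` in the algebra. -/
theorem mu2_map {G : Type} {A B : Type} [CommRing A] [Algebra (Zl ℓ) A] [CommRing B]
    [Algebra (Zl ℓ) B] (ι : B →ₐ[Zl ℓ] (G → Qb)) (f : A →ₐ[Zl ℓ] B) (t : A ⊗[Zl ℓ] A)
    (p : G × G) :
    mu2 ι (Algebra.TensorProduct.map f f t) p = mu2 (ι.comp f) t p := by
  induction t using TensorProduct.induction_on with
  | zero => simp
  | tmul a b => simp
  | add s t hs ht => simp only [map_add, Pi.add_apply, hs, ht]

/-- Naturality of `mu2` in the set. -/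
theorem mu2_pull {G G' : Type} {A : Type} [CommRing A] [Algebra (Zl ℓ) A]
    (ι : A →ₐ[Zl ℓ] (G → Qb)) (j : G' → G) (t : A ⊗[Zl ℓ] A) (p : G' × G') :
    mu2 ((pull ℓ j).comp ι) t p = mu2 ι t (j p.1, j p.2) := by
  induction t using TensorProduct.induction_on with
  | zero => simp
  | tmul a b => simp
  | add s t hs ht => simp only [map_add, Pi.add_apply, hs, ht]

/-- **The range construction.**  An algebra map `φ` from a finite `ℤ_(ℓ)`-algebra to the functions
on `G` which is equivariant, separates the points and is closed under the comultiplication gives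
the Hopf order of functions `φ.range`. -/
theorem isOrder_range {G : Type} [AddCommGroup G] {act : Gal → G → G} {A : Type} [CommRing A]
    [Algebra (Zl ℓ) A] [Module.Finite (Zl ℓ) A] (φ : A →ₐ[Zl ℓ] (G → Qb))
    (heq : ∀ (a : A) (σ : Gal) (x : G), φ a (act σ x) = σ (φ a x))
    (hsep : ∀ x y : G, x ≠ y → ∃ a : A, φ a x ≠ φ a y)
    (hΔ : ∀ a : A, ∃ t : A ⊗[Zl ℓ] A, ∀ x y : G, mu2 φ t (x, y) = φ a (x + y)) :
    IsOrder act φ.range.val := by
  refine ⟨?_, Subtype.val_injective, ?_, ?_, ?_⟩
  · exact Module.Finite.of_surjective φ.rangeRestrict.toLinearMap φ.rangeRestrict_surjective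
  · intro h σ x
    obtain ⟨a, ha⟩ := φ.mem_range.mp h.2
    change (h : G → Qb) (act σ x) = σ ((h : G → Qb) x)
    rw [← ha]
    exact heq a σ x
  · intro x y hxy
    obtain ⟨a, ha⟩ := hsep x y hxy
    exact ⟨⟨φ a, φ.mem_range.mpr ⟨a, rfl⟩⟩, ha⟩
  · intro h
    obtain ⟨a, ha⟩ := φ.mem_range.mp h.2
    obtain ⟨t, ht⟩ := hΔ a
    refine ⟨Algebra.TensorProduct.map φ.rangeRestrict φ.rangeRestrict t, ?_⟩
    funext p
    have hcomp : φ.range.val.comp φ.rangeRestrict = φ := AlgHom.ext fun _ => rfl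
    have h1 : mu2 φ t p = φ a (p.1 + p.2) := ht p.1 p.2
    rw [mu2_map, hcomp, h1, ha]
    rfl

/-- `HasOrder` from the range construction. -/
theorem hasOrder_of_map {G : Type} [AddCommGroup G] {act : Gal → G → G} {A : Type} [CommRing A]
    [Algebra (Zl ℓ) A] [Module.Finite (Zl ℓ) A] (φ : A →ₐ[Zl ℓ] (G → Qb))
    (heq : ∀ (a : A) (σ : Gal) (x : G), φ a (act σ x) = σ (φ a x))
    (hsep : ∀ x y : G, x ≠ y → ∃ a : A, φ a x ≠ φ a y)
    (hΔ : ∀ a : A, ∃ t : A ⊗[Zl ℓ] A, ∀ x y : G, mu2 φ t (x, y) = φ a (x + y)) :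
    HasOrder ℓ G act :=
  ⟨φ.range, inferInstance, inferInstance, φ.range.val, isOrder_range φ heq hsep hΔ⟩

/-- The Galois action of an order fixes `0`. -/
theorem HasOrder.act_zero {G : Type} [AddCommGroup G] {act : Gal → G → G} (h : HasOrder ℓ G act)
    (σ : Gal) : act σ 0 = 0 := by
  obtain ⟨A, _, _, ι, O⟩ := h
  exact O.act_zero σ

/-- Every tensor is a finite sum `∑ j, m j ⊗ b j` along a finite basis of the right factor. -/
theorem exists_sum_tmul_basis {R M N κ : Type*} [CommRing R] [AddCommGroup M] [Module R M]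
    [AddCommGroup N] [Module R N] [Fintype κ] (b : Module.Basis κ R N) (t : M ⊗[R] N) :
    ∃ m : κ → M, t = ∑ j, m j ⊗ₜ[R] b j := by
  induction t using TensorProduct.induction_on with
  | zero => exact ⟨fun _ => 0, by simp⟩
  | tmul x y =>
    refine ⟨fun j => (b.repr y j) • x, ?_⟩
    conv_lhs => rw [← b.sum_repr y]
    rw [TensorProduct.tmul_sum]
    refine Finset.sum_congr rfl fun j _ => ?_
    rw [TensorProduct.tmul_smul, TensorProduct.smul_tmul']
  | add s t hs ht =>
    obtain ⟨m, rfl⟩ := hs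
    obtain ⟨m', rfl⟩ := ht
    refine ⟨fun j => m j + m' j, ?_⟩
    rw [← Finset.sum_add_distrib]
    refine Finset.sum_congr rfl fun j _ => ?_
    rw [TensorProduct.add_tmul]

end Fermat.Agent.S32.Closure
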