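/-
S32, closure half (C2) of the transfer chain (helper133): quotients.

If `(G, act)` carries a Hopf order of functions `A` and `q : G → G''` is a surjective additive map
intertwining `act` with `act''`, then the functions on `G''` whose pull-back along `q` lies in `A`
form a Hopf order of functions on `(G'', act'')`.

* separation: the coset trace `Tr a (x) = ∑_{k ∈ ker q} a (x + k)` of `a ∈ A` lies in `A`
  (`trace_exists`: `Tr a = (id ⊗ γ)(Δ a)` with `γ c = ∑_k c k ∈ ℤ_(ℓ)`, Galois-fixed and
  integral), is constant on the fibres of `q`, and the traces separate the fibres because the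
  `ℚ̄`-span of `A` is the algebra of all functions (`sep_trace`);
* comultiplication: write `Δ a = ∑_j m_j ⊗ e_j` along a basis of `A`; linear independence over
  `ℚ̄` of the `e_j` shows that every `m_j` is constant on the fibres; re-expand along a basis of
  the quotient order and repeat in the other variable (`isOrder_quot`).  No complement of the
  submodule of invariants is needed.
-/
import Mathlib
import Fermat.Agent.S32.Closure.Defs

set_option autoImplicit false
set_option linter.style.haveILetI false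

noncomputable section

namespace Fermat.Agent.S32.Closure

open scoped TensorProduct
open Fermat.Agent.S19.HopfOrder GaloisRep

variable {ℓ : ℕ} {G G'' : Type} [AddCommGroup G] [AddCommGroup G'']
  {act : Gal → G → G} {act'' : Gal → G'' → G''}
  {A : Type} [CommRing A] [Algebra (Zl ℓ) A] {ι : A →ₐ[Zl ℓ] (G → Qb)}

/-- The functions on the quotient whose pull-back lies in the order. -/
def quotAlg (ι : A →ₐ[Zl ℓ] (G → Qb)) (q : G → G'') : Subalgebra (Zl ℓ) (G'' → Qb) :=
  ι.range.comap (pull ℓ q)

omit [AddCommGroup G] [AddCommGroup G''] in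
theorem mem_quotAlg {q : G → G''} {f : G'' → Qb} :
    f ∈ quotAlg ι q ↔ ∃ a : A, ∀ x, ι a x = f (q x) := by
  rw [quotAlg, Subalgebra.mem_comap, AlgHom.mem_range]
  constructor
  · rintro ⟨a, ha⟩
    exact ⟨a, fun x => congrFun ha x⟩
  · rintro ⟨a, ha⟩
    exact ⟨a, funext ha⟩

omit [AddCommGroup G] [AddCommGroup G''] in
/-- An element of the order which is constant on the fibres of `q` descends. -/
theorem exists_descend (q : G → G'') (hq : Function.Surjective q) (a : A)
    (ha : ∀ x x' : G, q x = q x' → ι a x = ι a x') :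
    ∃ g : quotAlg ι q, ∀ x, (g : G'' → Qb) (q x) = ι a x := by
  refine ⟨⟨fun z => ι a (Function.surjInv hq z), mem_quotAlg.mpr ⟨a, fun x => ?_⟩⟩, fun x => ?_⟩
  · exact ha _ _ (Function.surjInv_eq hq (q x)).symm
  · exact ha _ _ (Function.surjInv_eq hq (q x))

/-- The coset trace is constant on the fibres of `q`. -/
theorem trace_inv (q : G →+ G'') (K : Finset G) (hK : ∀ k, k ∈ K ↔ q k = 0) (F : G → Qb)
    (x x' : G) (h : q x = q x') : ∑ k ∈ K, F (x + k) = ∑ k ∈ K, F (x' + k) := by
  have hd : q (x - x') = 0 := by rw [map_sub, h, sub_self]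
  refine Finset.sum_nbij' (fun k => k + (x - x')) (fun k => k - (x - x')) ?_ ?_ ?_ ?_ ?_
  · intro k hk
    rw [hK] at hk ⊢
    rw [map_add, hk, hd, add_zero]
  · intro k hk
    rw [hK] at hk ⊢
    rw [map_sub, hk, hd, sub_zero]
  · intro k _
    simp
  · intro k _
    simp
  · intro k _
    congr 1
    abel

/-- The coset trace of an element of the order lies in the order. -/
theorem trace_exists (O : IsOrder act ι) (q : G →+ G'')
    (hact : ∀ (σ : Gal) (x : G), q (act σ x) = act'' σ (q x))
    (K : Finset G) (hK : ∀ k, k ∈ K ↔ q k = 0) (a : A) :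
    ∃ a' : A, ∀ x, ι a' x = ∑ k ∈ K, ι a (x + k) := by
  classical
  have hact0 : ∀ σ, act'' σ 0 = 0 := by
    intro σ
    have h := hact σ 0
    rw [O.act_zero, map_zero] at h
    exact h.symm
  have hKstab : ∀ σ k, k ∈ K → act σ k ∈ K := by
    intro σ k hk
    rw [hK] at hk ⊢
    rw [hact, hk, hact0]
  have himage : ∀ σ, K.image (act σ) = K := by
    intro σ
    apply Finset.eq_of_subset_of_card_le
    · intro y hy
      obtain ⟨k, hk, rfl⟩ := Finset.mem_image.mp hy
      exact hKstab σ k hk
    · exact le_of_eq (Finset.card_image_of_injective _ (O.act_injective σ)).symm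
  have hconst : ∀ c : A, ∃ r : Zl ℓ, algebraMap (Zl ℓ) Qb r = ∑ k ∈ K, ι c k := by
    intro c
    refine mem_range_of_fixed_of_isIntegral ℓ (fun σ => ?_) ?_
    · rw [map_sum]
      calc ∑ k ∈ K, σ (ι c k) = ∑ k ∈ K, ι c (act σ k) :=
            Finset.sum_congr rfl fun k _ => (O.equivariant c σ k).symm
        _ = ∑ k ∈ K.image (act σ), ι c k :=
            (Finset.sum_image fun x _ y _ h => O.act_injective σ h).symm
        _ = ∑ k ∈ K, ι c k := by rw [himage σ]
    · exact IsIntegral.sum _ fun k _ => (O.isIntegral c).map (evA ι k)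
  have key : ∀ t : A ⊗[Zl ℓ] A, ∃ a' : A, ∀ x, ι a' x = ∑ k ∈ K, mu2 ι t (x, k) := by
    intro t
    induction t using TensorProduct.induction_on with
    | zero => exact ⟨0, fun x => by simp⟩
    | tmul b c =>
      obtain ⟨r, hr⟩ := hconst c
      refine ⟨r • b, fun x => ?_⟩
      rw [map_smul, Pi.smul_apply, Algebra.smul_def, hr, Finset.sum_mul]
      refine Finset.sum_congr rfl fun k _ => ?_
      rw [mu2_tmul]
      exact mul_comm _ _
    | add s t hs ht =>
      obtain ⟨a1, h1⟩ := hs
      obtain ⟨a2, h2⟩ := ht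
      refine ⟨a1 + a2, fun x => ?_⟩
      have e1 : ι (a1 + a2) x = ι a1 x + ι a2 x := by rw [map_add, Pi.add_apply]
      have e2 : ∀ k, mu2 ι (s + t) (x, k) = mu2 ι s (x, k) + mu2 ι t (x, k) := fun k => by
        rw [map_add, Pi.add_apply]
      rw [e1, h1, h2, ← Finset.sum_add_distrib]
      exact Finset.sum_congr rfl fun k _ => (e2 k).symm
  obtain ⟨t, ht⟩ := O.comul a
  obtain ⟨a', ha'⟩ := key t
  refine ⟨a', fun x => ?_⟩
  rw [ha']
  refine Finset.sum_congr rfl fun k _ => ?_
  rw [ht]

/-- The coset traces separate the fibres of `q`. -/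
theorem sep_trace (O : IsOrder act ι) (q : G →+ G'') (K : Finset G)
    (hK : ∀ k, k ∈ K ↔ q k = 0) (x y : G) (hxy : q x ≠ q y) :
    ∃ a : A, ∑ k ∈ K, ι a (x + k) ≠ ∑ k ∈ K, ι a (y + k) := by
  classical
  by_contra hall0
  have hall : ∀ a : A, ∑ k ∈ K, ι a (x + k) = ∑ k ∈ K, ι a (y + k) := fun a => by
    by_contra h
    exact hall0 ⟨a, h⟩
  have key : ∀ F : G → Qb, ∑ k ∈ K, F (x + k) = ∑ k ∈ K, F (y + k) := by
    intro F
    have hF : F ∈ Submodule.span Qb (Set.range ι : Set (G → Qb)) := by
      rw [O.span_range_eq_top]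
      trivial
    induction hF using Submodule.span_induction with
    | mem f hf =>
      obtain ⟨a, rfl⟩ := hf
      exact hall a
    | zero => simp
    | add f g _ _ hf hg => simp only [Pi.add_apply, Finset.sum_add_distrib, hf, hg]
    | smul c f _ hf => simp only [Pi.smul_apply, smul_eq_mul, ← Finset.mul_sum, hf]
  have h1 := key (Pi.single x 1)
  have hl : ∑ k ∈ K, (Pi.single x (1 : Qb) : G → Qb) (x + k) = 1 := by
    rw [Finset.sum_eq_single 0]
    · rw [add_zero, Pi.single_eq_same]
    · intro k _ hk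
      exact Pi.single_eq_of_ne (fun h => hk (by simpa using h)) _
    · intro h0
      exact absurd ((hK 0).mpr (map_zero q)) h0
  have hr : ∑ k ∈ K, (Pi.single x (1 : Qb) : G → Qb) (y + k) = 0 := by
    refine Finset.sum_eq_zero fun k hk => ?_
    refine Pi.single_eq_of_ne (fun h => hxy ?_) _
    rw [← h, map_add, (hK k).mp hk, add_zero]
  rw [hl, hr] at h1
  exact one_ne_zero h1

/-- **(quot)** The quotient order. -/
theorem isOrder_quot (O : IsOrder act ι) (q : G →+ G'') (hq : Function.Surjective q)
    (hact : ∀ (σ : Gal) (x : G), q (act σ x) = act'' σ (q x)) :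
    IsOrder act'' (quotAlg ι (q : G → G'')).val := by
  classical
  haveI := O.finite
  haveI := O.free
  haveI : Finite G := O.finite_G
  letI := Fintype.ofFinite G
  let K : Finset G := Finset.univ.filter (fun k => q k = 0)
  have hK : ∀ k, k ∈ K ↔ q k = 0 := fun k => by simp [K]
  -- finiteness
  have hfin : Module.Finite (Zl ℓ) (quotAlg ι (q : G → G'')) := by
    haveI : IsNoetherian (Zl ℓ) A := isNoetherian_of_isNoetherianRing_of_finite (Zl ℓ) A
    have hmem : ∀ g : quotAlg ι (q : G → G''),
        ((pull ℓ (q : G → G'')).toLinearMap.comp (quotAlg ι (q : G → G'')).val.toLinearMap) g ∈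
          LinearMap.range ι.toLinearMap := by
      intro g
      obtain ⟨a, ha⟩ := mem_quotAlg.mp g.2
      exact ⟨a, funext ha⟩
    let ψ0 : quotAlg ι (q : G → G'') →ₗ[Zl ℓ] LinearMap.range ι.toLinearMap :=
      LinearMap.codRestrict _
        ((pull ℓ (q : G → G'')).toLinearMap.comp (quotAlg ι (q : G → G'')).val.toLinearMap) hmem
    have hψ0 : Function.Injective ψ0 := by
      intro g g' h
      have h' : (fun x => (g : G'' → Qb) (q x)) = fun x => (g' : G'' → Qb) (q x) :=
        congrArg Subtype.val h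
      apply Subtype.ext
      funext z
      obtain ⟨x, rfl⟩ := hq z
      exact congrFun h' x
    have hψ : Function.Injective
        ((LinearEquiv.ofInjective ι.toLinearMap O.inj).symm.toLinearMap.comp ψ0) := by
      intro g g' h
      exact hψ0 ((LinearEquiv.ofInjective ι.toLinearMap O.inj).symm.injective h)
    exact Module.Finite.of_injective _ hψ
  -- equivariance
  have hequiv : ∀ (g : quotAlg ι (q : G → G'')) (σ : Gal) (z : G''),
      (g : G'' → Qb) (act'' σ z) = σ ((g : G'' → Qb) z) := by
    intro g σ z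
    obtain ⟨x, rfl⟩ := hq z
    obtain ⟨a, ha⟩ := mem_quotAlg.mp g.2
    rw [← hact, ← ha, ← ha, O.equivariant]
  -- separation
  have hsep : ∀ z w : G'', z ≠ w →
      ∃ g : quotAlg ι (q : G → G''), (g : G'' → Qb) z ≠ (g : G'' → Qb) w := by
    intro z w hzw
    obtain ⟨x, rfl⟩ := hq z
    obtain ⟨y, rfl⟩ := hq w
    obtain ⟨a, ha⟩ := sep_trace O q K hK x y hzw
    obtain ⟨a', ha'⟩ := trace_exists O q hact K hK a
    obtain ⟨g, hg⟩ := exists_descend (ι := ι) (q : G → G'') hq a' (fun u u' huu' => by
      rw [ha', ha']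
      exact trace_inv q K hK _ u u' huu')
    refine ⟨g, ?_⟩
    rw [hg, hg, ha', ha']
    exact ha
  refine ⟨hfin, Subtype.val_injective, hequiv, hsep, ?_⟩
  -- comultiplication
  intro f
  haveI := hfin
  have hinj : Function.Injective (quotAlg ι (q : G → G'')).val := Subtype.val_injective
  haveI : Module.IsTorsionFree (Zl ℓ) (quotAlg ι (q : G → G'')) :=
    hinj.moduleIsTorsionFree (quotAlg ι (q : G → G'')).val
      (fun r m => map_smul (quotAlg ι (q : G → G'')).val r m)
  haveI : Module.Free (Zl ℓ) (quotAlg ι (q : G → G'')) := Module.free_of_finite_type_torsion_free'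
  let e := Module.Free.chooseBasis (Zl ℓ) A
  let e'' := Module.Free.chooseBasis (Zl ℓ) (quotAlg ι (q : G → G''))
  have hli : LinearIndependent Qb (fun j => ι (e j)) := O.linearIndependent_basis e
  have hsurj'' : ∀ σ, Function.Surjective (act'' σ) := by
    intro σ z
    obtain ⟨x, rfl⟩ := hq z
    obtain ⟨x', rfl⟩ := O.act_surjective σ x
    exact ⟨q x', (hact σ x').symm⟩
  have hli'' : LinearIndependent Qb (fun i => (quotAlg ι (q : G → G'')).val (e'' i)) := by
    have hR : LinearIndependent (Zl ℓ) (fun i => (quotAlg ι (q : G → G'')).val (e'' i)) :=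
      e''.linearIndependent.map' (quotAlg ι (q : G → G'')).val.toLinearMap
        (LinearMap.ker_eq_bot.mpr Subtype.val_injective)
    have hℚ : LinearIndependent ℚ (fun i => (quotAlg ι (q : G → G'')).val (e'' i)) :=
      (LinearIndependent.iff_fractionRing (Zl ℓ) ℚ).mp hR
    exact linearIndependent_of_equivariant act'' hsurj'' _
      (fun i σ z => hequiv (e'' i) σ z) hℚ
  obtain ⟨a, ha⟩ := mem_quotAlg.mp f.2
  obtain ⟨t, ht⟩ := O.comul a
  obtain ⟨m, hm⟩ := exists_sum_tmul_basis e t
  have hF : ∀ x y, ι a (x + y) = ∑ j, ι (m j) x * ι (e j) y := by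
    intro x y
    have h1 : mu2 ι t (x, y) = ι a (x + y) := congrFun ht (x, y)
    rw [← h1, hm, map_sum, Finset.sum_apply]
    exact Finset.sum_congr rfl fun j _ => mu2_tmul ι (m j) (e j) (x, y)
  -- step 1: the left coefficients are constant on the fibres
  have h1 : ∀ j, ∀ x x' : G, q x = q x' → ι (m j) x = ι (m j) x' := by
    intro j x x' hxx'
    have hrel : ∑ j, (ι (m j) x - ι (m j) x') • ι (e j) = 0 := by
      funext y
      simp only [Finset.sum_apply, Pi.smul_apply, smul_eq_mul, Pi.zero_apply, sub_mul,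
        Finset.sum_sub_distrib]
      rw [← hF x y, ← hF x' y, ha, ha, map_add, map_add, hxx', sub_self]
    exact sub_eq_zero.mp (Fintype.linearIndependent_iff.mp hli _ hrel j)
  choose F hFd using fun j => exists_descend (ι := ι) (q : G → G'') hq (m j) (h1 j)
  -- step 2: re-expand along the basis of the quotient order
  let m' : Module.Free.ChooseBasisIndex (Zl ℓ) (quotAlg ι (q : G → G'')) → A :=
    fun i => ∑ j, (e''.repr (F j) i) • e j
  have hexp : ∀ (g : quotAlg ι (q : G → G'')) (z : G''), (g : G'' → Qb) z =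
      ∑ i, algebraMap (Zl ℓ) Qb (e''.repr g i) * (quotAlg ι (q : G → G'')).val (e'' i) z := by
    intro g z
    have h : (quotAlg ι (q : G → G'')).val (∑ i, e''.repr g i • e'' i) z = (g : G'' → Qb) z :=
      congrArg (fun g' : quotAlg ι (q : G → G'') => (g' : G'' → Qb) z) (e''.sum_repr g)
    rw [← h, map_sum, Finset.sum_apply]
    refine Finset.sum_congr rfl fun i _ => ?_
    rw [map_smul, Pi.smul_apply, Algebra.smul_def]
  have hm' : ∀ i y, ι (m' i) y = ∑ j, algebraMap (Zl ℓ) Qb (e''.repr (F j) i) * ι (e j) y := by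
    intro i y
    change ι (∑ j, (e''.repr (F j) i) • e j) y = _
    rw [map_sum, Finset.sum_apply]
    refine Finset.sum_congr rfl fun j _ => ?_
    rw [map_smul, Pi.smul_apply, Algebra.smul_def]
  have hF2 : ∀ x y, ι a (x + y) =
      ∑ i, (quotAlg ι (q : G → G'')).val (e'' i) (q x) * ι (m' i) y := by
    intro x y
    rw [hF x y]
    calc ∑ j, ι (m j) x * ι (e j) y
        = ∑ j, (∑ i, algebraMap (Zl ℓ) Qb (e''.repr (F j) i) *
            (quotAlg ι (q : G → G'')).val (e'' i) (q x)) * ι (e j) y := by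
          refine Finset.sum_congr rfl fun j _ => ?_
          rw [← hFd j x, hexp (F j) (q x)]
      _ = ∑ j, ∑ i, (quotAlg ι (q : G → G'')).val (e'' i) (q x) *
            (algebraMap (Zl ℓ) Qb (e''.repr (F j) i) * ι (e j) y) := by
          refine Finset.sum_congr rfl fun j _ => ?_
          rw [Finset.sum_mul]
          refine Finset.sum_congr rfl fun i _ => ?_
          ring
      _ = ∑ i, ∑ j, (quotAlg ι (q : G → G'')).val (e'' i) (q x) *
            (algebraMap (Zl ℓ) Qb (e''.repr (F j) i) * ι (e j) y) := Finset.sum_comm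
      _ = ∑ i, (quotAlg ι (q : G → G'')).val (e'' i) (q x) * ι (m' i) y := by
          refine Finset.sum_congr rfl fun i _ => ?_
          rw [hm' i y, Finset.mul_sum]
  -- step 3: the right coefficients are constant on the fibres
  have h3 : ∀ i, ∀ y y' : G, q y = q y' → ι (m' i) y = ι (m' i) y' := by
    intro i y y' hyy'
    have hrel : ∑ i, (ι (m' i) y - ι (m' i) y') • (quotAlg ι (q : G → G'')).val (e'' i) = 0 := by
      funext z
      obtain ⟨x, rfl⟩ := hq z
      simp only [Finset.sum_apply, Pi.smul_apply, smul_eq_mul, Pi.zero_apply, sub_mul,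
        Finset.sum_sub_distrib]
      have e1 : ∀ y₀ : G, ∑ i, ι (m' i) y₀ * (quotAlg ι (q : G → G'')).val (e'' i) (q x) =
          ι a (x + y₀) := by
        intro y₀
        rw [hF2 x y₀]
        exact Finset.sum_congr rfl fun i _ => mul_comm _ _
      rw [e1 y, e1 y', ha, ha, map_add, map_add, hyy', sub_self]
    exact sub_eq_zero.mp (Fintype.linearIndependent_iff.mp hli'' _ hrel i)
  choose F' hF'd using fun i => exists_descend (ι := ι) (q : G → G'') hq (m' i) (h3 i)
  -- step 4: the comultiplication of `f`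
  refine ⟨∑ i, e'' i ⊗ₜ[Zl ℓ] F' i, ?_⟩
  funext p
  obtain ⟨z, w⟩ := p
  obtain ⟨x, rfl⟩ := hq z
  obtain ⟨y, rfl⟩ := hq w
  change mu2 (quotAlg ι (q : G → G'')).val (∑ i, e'' i ⊗ₜ[Zl ℓ] F' i) (q x, q y) =
    (f : G'' → Qb) (q x + q y)
  rw [map_sum, Finset.sum_apply, ← map_add q x y, ← ha, hF2 x y]
  refine Finset.sum_congr rfl fun i _ => ?_
  rw [mu2_tmul]
  change (quotAlg ι (q : G → G'')).val (e'' i) (q x) * (F' i : G'' → Qb) (q y) = _
  rw [hF'd]

/-- **(quot)** Quotients of Hopf orders of functions along surjective equivariant maps. -/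
theorem HasOrder.of_surjective (h : HasOrder ℓ G act) (q : G →+ G'')
    (hq : Function.Surjective q) (hact : ∀ (σ : Gal) (x : G), q (act σ x) = act'' σ (q x)) :
    HasOrder ℓ G'' act'' := by
  obtain ⟨A, _, _, ι, O⟩ := h
  exact ⟨quotAlg ι (q : G → G''), inferInstance, inferInstance,
    (quotAlg ι (q : G → G'')).val, isOrder_quot O q hq hact⟩

/-- **(quot)** Quotients by subgroups. -/
theorem HasOrder.quotient (h : HasOrder ℓ G act) (S : AddSubgroup G)
    (actS : Gal → G ⧸ S → G ⧸ S)
    (hact : ∀ (σ : Gal) (x : G), ((act σ x : G) : G ⧸ S) = actS σ (x : G ⧸ S)) :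
    HasOrder ℓ (G ⧸ S) actS :=
  h.of_surjective (QuotientAddGroup.mk' S) (QuotientAddGroup.mk'_surjective S) hact

end Fermat.Agent.S32.Closure
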