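/-
S32, closure half (C2) of the transfer chain (helper133): subgroups and isomorphic copies.

* `HasOrder.of_injective` : if `(G, act)` carries a Hopf order of functions and `j : G' → G` is an
  injective additive map intertwining `act'` with `act`, then `(G', act')` carries one
  (restriction of functions along `j`);
* `HasOrder.of_addEquiv`  : transport along an equivariant additive equivalence;
* `HasOrder.subgroup`     : `act`-stable subgroups.
-/
import Mathlib
import Fermat.Agent.S32.Closure.Defs

set_option autoImplicit false
set_option linter.style.haveILetI false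

noncomputable section

namespace Fermat.Agent.S32.Closure

open scoped TensorProduct
open Fermat.Agent.S19.HopfOrder GaloisRep

variable {ℓ : ℕ} {G G' : Type} [AddCommGroup G] [AddCommGroup G']
  {act : Gal → G → G} {act' : Gal → G' → G'}

/-- **(sub)** Restriction of a Hopf order of functions along an injective equivariant map. -/
theorem HasOrder.of_injective (h : HasOrder ℓ G act) (j : G' →+ G) (hj : Function.Injective j)
    (hact : ∀ (σ : Gal) (x : G'), j (act' σ x) = act σ (j x)) : HasOrder ℓ G' act' := by
  obtain ⟨A, _, _, ι, O⟩ := h
  haveI := O.finite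
  refine hasOrder_of_map ((pull ℓ (j : G' → G)).comp ι) ?_ ?_ ?_
  · intro a σ x
    change ι a (j (act' σ x)) = σ (ι a (j x))
    rw [hact, O.equivariant]
  · intro x y hxy
    obtain ⟨a, ha⟩ := O.sep (j x) (j y) (fun h => hxy (hj h))
    exact ⟨a, ha⟩
  · intro a
    obtain ⟨t, ht⟩ := O.comul a
    refine ⟨t, fun x y => ?_⟩
    rw [mu2_pull, ht]
    change ι a (j x + j y) = ι a (j (x + y))
    rw [map_add]

/-- **(iso)** Transport of a Hopf order of functions along an equivariant additive equivalence. -/
theorem HasOrder.of_addEquiv (h : HasOrder ℓ G act) (e : G' ≃+ G)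
    (hact : ∀ (σ : Gal) (x : G'), e (act' σ x) = act σ (e x)) : HasOrder ℓ G' act' :=
  h.of_injective e.toAddMonoidHom e.injective hact

/-- **(sub)** Stable subgroups. -/
theorem HasOrder.subgroup (h : HasOrder ℓ G act) (S : AddSubgroup G)
    (hS : ∀ (σ : Gal) (x : G), x ∈ S → act σ x ∈ S) :
    HasOrder ℓ S (fun σ x => ⟨act σ x, hS σ x x.2⟩) :=
  h.of_injective S.subtype S.subtype_injective (fun _ _ => rfl)

end Fermat.Agent.S32.Closure
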