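/-
S32, closure half (C2) of the transfer chain (helper133): the two exits.

* `hasOrder_of_finite_level` : the composite (pi) → (sub) → (quot) in the shape of
  `S32.FiniteLevel.exists_finite_level_hom` (helper246): if `(X, actX)` carries a Hopf order of
  functions, `j : G' → (Fin s → X)` is injective, `q : G' → V` is surjective and both are
  equivariant, then `(V, actV)` carries a Hopf order of functions;
* `isFlatAt_of_hasOrder`     : `GaloisRepAdic.IsFlatAt` from Hopf orders of functions on all the
  finite quotients `ρ.V ⧸ I • ⊤`.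
-/
import Mathlib
import Fermat.Agent.S32.Closure.Quot
import Fermat.Agent.S32.Closure.Prod

set_option autoImplicit false

noncomputable section

namespace Fermat.Agent.S32.Closure

open Fermat.Agent.S19.HopfOrder GaloisRep

/-- **(pi) → (sub) → (quot).** -/
theorem hasOrder_of_finite_level {ℓ : ℕ} {X V : Type} [AddCommGroup X] [AddCommGroup V]
    {actX : Gal → X → X} {actV : Gal → V → V} (hX : HasOrder ℓ X actX) (s : ℕ)
    {G' : Type} [AddCommGroup G'] (act' : Gal → G' → G') (j : G' →+ (Fin s → X)) (q : G' →+ V)
    (hj : Function.Injective j) (hjact : ∀ (σ : Gal) (x : G'), j (act' σ x) = fun i => actX σ (j x i))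
    (hq : Function.Surjective q) (hqact : ∀ (σ : Gal) (x : G'), q (act' σ x) = actV σ (q x)) :
    HasOrder ℓ V actV :=
  ((hX.pi s).of_injective j hj hjact).of_surjective q hq hqact

/-- **`IsFlatAt` from Hopf orders of functions on all finite quotients.** -/
theorem isFlatAt_of_hasOrder {A : Type} [CommRing A] [IsLocalRing A] (ρ : GaloisRepAdic A)
    (p : ℕ) (hres : Finite (IsLocalRing.ResidueField A))
    (hI : ∀ I : Ideal A, Finite (A ⧸ I) →
      HasOrder p (ρ.V ⧸ (I • (⊤ : Submodule A ρ.V))) (fun σ x => ρ.levelAction I σ x)) :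
    ρ.IsFlatAt p :=
  ⟨hres, fun I hfin => (hI I hfin).exists_hopf⟩

end Fermat.Agent.S32.Closure
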