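/-
S32, closure half of the transfer chain (helper133): adapters from the frozen clause to `HasOrder`.

(C0) itself is `S19/HopfOrder/Converse` (helper235): `exists_hopf_iff_order`.

* `hasOrder_of_exists_hopf` : the frozen ∃-Hopf clause for `(G, act)` gives `HasOrder ℓ G act`;
* `hasOrder_iff_exists_hopf`: the two are equivalent;
* `hasOrder_of_frozenS19`   : the conclusion of the frozen S19 at `(N, ℓ, k)`, verbatim, gives
  `HasOrder ℓ (J₀(N)[ℓ^k]) (torsAct (ℓ^k))`.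
-/
import Mathlib
import Fermat.Agent.S19.HopfOrder.Converse
import Fermat.Agent.S32.Closure.Defs

set_option autoImplicit false

noncomputable section

namespace Fermat.Agent.S32.Closure

open Fermat.Agent.S19.HopfOrder GaloisRep ModularCurve

/-- **(C0), `HasOrder` form.** The frozen ∃-Hopf clause gives a Hopf order of functions. -/
theorem hasOrder_of_exists_hopf {ℓ : ℕ} {G : Type} [AddCommGroup G] {act : Gal → G → G}
    (h : ∃ (H : Type) (_ : CommRing H) (_ : HopfAlgebra (ratLocalizedAt ℓ) H),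
      Module.Finite (ratLocalizedAt ℓ) H ∧ Module.Flat (ratLocalizedAt ℓ) H ∧
      Coalgebra.IsCocomm (ratLocalizedAt ℓ) H ∧
      ∃ e : WithConv (H →ₐ[ratLocalizedAt ℓ] AlgebraicClosure ℚ) ≃ G,
        (∀ f g, e (f * g) = e f + e g) ∧
        ∀ (σ : AlgebraicClosure ℚ ≃ₐ[ℚ] AlgebraicClosure ℚ)
          (f g : WithConv (H →ₐ[ratLocalizedAt ℓ] AlgebraicClosure ℚ)),
          (∀ h : H, g h = σ (f h)) → e g = act σ (e f)) :
    HasOrder ℓ G act := by
  obtain ⟨K, hfg, heq, hsep, hΔ⟩ := (exists_hopf_iff_order ℓ act).mp h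
  exact ⟨K, inferInstance, inferInstance, K.val, isOrder_of_subalgebra ℓ act K hfg heq hsep hΔ⟩

/-- `HasOrder` is equivalent to the frozen ∃-Hopf clause. -/
theorem hasOrder_iff_exists_hopf {ℓ : ℕ} {G : Type} [AddCommGroup G] {act : Gal → G → G} :
    HasOrder ℓ G act ↔
    ∃ (H : Type) (_ : CommRing H) (_ : HopfAlgebra (ratLocalizedAt ℓ) H),
      Module.Finite (ratLocalizedAt ℓ) H ∧ Module.Flat (ratLocalizedAt ℓ) H ∧
      Coalgebra.IsCocomm (ratLocalizedAt ℓ) H ∧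
      ∃ e : WithConv (H →ₐ[ratLocalizedAt ℓ] AlgebraicClosure ℚ) ≃ G,
        (∀ f g, e (f * g) = e f + e g) ∧
        ∀ (σ : AlgebraicClosure ℚ ≃ₐ[ℚ] AlgebraicClosure ℚ)
          (f g : WithConv (H →ₐ[ratLocalizedAt ℓ] AlgebraicClosure ℚ)),
          (∀ h : H, g h = σ (f h)) → e g = act σ (e f) :=
  ⟨fun h => h.exists_hopf, hasOrder_of_exists_hopf⟩

/-- **The frozen S19 at `(N, ℓ, k)`, verbatim, gives a Hopf order of functions on
`J₀(N)[ℓ^k]`.** -/
theorem hasOrder_of_frozenS19 (N : ℕ) [NeZero N] (ℓ : ℕ) (k : ℕ)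
    (h : ∃ (H : Type) (_ : CommRing H) (_ : HopfAlgebra (GaloisRep.ratLocalizedAt ℓ) H),
      Module.Finite (GaloisRep.ratLocalizedAt ℓ) H ∧ Module.Flat (GaloisRep.ratLocalizedAt ℓ) H ∧
      Coalgebra.IsCocomm (GaloisRep.ratLocalizedAt ℓ) H ∧
      ∃ e : WithConv (H →ₐ[GaloisRep.ratLocalizedAt ℓ] AlgebraicClosure ℚ) ≃
          ↥(Submodule.torsionBy ℤ (JZero N) ((ℓ : ℤ) ^ k)),
        (∀ f g, e (f * g) = e f + e g) ∧
        ∀ (σ : AlgebraicClosure ℚ ≃ₐ[ℚ] AlgebraicClosure ℚ)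
          (f g : WithConv (H →ₐ[GaloisRep.ratLocalizedAt ℓ] AlgebraicClosure ℚ)),
          (∀ h : H, g h = σ (f h)) → ((e g : JZero N)) = σ • (e f : JZero N)) :
    HasOrder ℓ ↥(Submodule.torsionBy ℤ (JZero N) ((ℓ : ℤ) ^ k)) (torsAct ((ℓ : ℤ) ^ k)) := by
  obtain ⟨H, i1, i2, h1, h2, h3, e, he1, he2⟩ := h
  exact hasOrder_of_exists_hopf
    ⟨H, i1, i2, h1, h2, h3, e, he1, fun σ f g hfg => Subtype.ext (he2 σ f g hfg)⟩

end Fermat.Agent.S32.Closure
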